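import Fermat.Agent.H22.ORD.PairSemiOrtho

/-!
# P-ORD, block B1-LIFT : (PAIR-SEMI) without coefficient functionals, part 2 (helper22)

The determinant-minimal inertia-fixed basis.

Setting : `V` a finite-dimensional space of functions, `e` a basis of `V` inside `V_∞` with
linearly independent reductions (G3), so that `V ∩ V_∞ = ∑ A e_i` and the determinant `det_e f`
of every family `f` of `V ∩ V_∞` lies in `A`.

* `psu_det_update` : `det_e (f[i₀ ↦ c • ∑ a_i f_i]) = c a_{i₀} det_e f`;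
* `psu_det_integral` : `det_e f ∈ A` for a family of `V ∩ V_∞`;
* `psu_descend` : the induction : an inertia-fixed family of `V ∩ V_∞ ∩ V_0` with
  `p ^ n / det_e f ∈ A` can be improved to one with independent pairs of reductions.
-/

set_option autoImplicit false
set_option linter.unusedSectionVars false
set_option linter.style.haveILetI false
set_option maxHeartbeats 1600000
set_option synthInstance.maxHeartbeats 400000

noncomputable section

open AlgebraicCurve ModularCurve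

namespace Fermat.Agent.H22.ORD

open Fermat.Agent.H72.FF Fermat.Agent.H18.ORD

variable {N : ℕ} {A : ValuationSubring Qb} {Foo F0 : Type} [Field Foo] [Field F0]
  [Algebra (kRes A) Foo] [Algebra (kRes A) F0] {ι : Type}
  {p : ℕ} {G : NodalData N A Foo F0 ι}

/-- the determinant after replacing one vector by a multiple of a combination -/
theorem psu_det_update {d : ℕ} {V : Submodule Qb (FLb N)} (e : Module.Basis (Fin d) Qb V)
    (f : Fin d → V) (a : Fin d → Qb) (c : Qb) (i₀ : Fin d) :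
    e.det (Function.update f i₀ (c • ∑ i, a i • f i)) = c * a i₀ * e.det f := by
  classical
  rw [AlternatingMap.map_update_smul, ← AlternatingMap.coe_multilinearMap,
    MultilinearMap.map_update_sum, smul_eq_mul, mul_assoc]
  congr 1
  rw [Finset.sum_eq_single i₀]
  · rw [MultilinearMap.map_update_smul, Function.update_eq_self, smul_eq_mul]
  · intro i _ hi
    rw [MultilinearMap.map_update_smul, AlternatingMap.coe_multilinearMap,
      AlternatingMap.map_update_self _ _ (Ne.symm hi), smul_zero]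
  · intro h
    exact absurd (Finset.mem_univ _) h

/-- the determinant of a family of `V ∩ V_∞` is integral -/
theorem psu_det_integral (H : NodalRvHyp p G) {d : ℕ} {V : Submodule Qb (FLb N)}
    (e : Module.Basis (Fin d) Qb V) (u : Fin d → G.Voo)
    (heu : ∀ i, ((e i : V) : FLb N) = ((u i : G.Voo) : FLb N))
    (hu : LinearIndependent (kRes A) (fun i => G.redOo (u i)))
    (f : Fin d → V) (hf : ∀ i, ((f i : V) : FLb N) ∈ G.Voo) : e.det f ∈ A := by
  classical
  rw [Module.Basis.det_apply]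
  refine psu_det_mem _ fun i j => ?_
  rw [Module.Basis.toMatrix_apply]
  refine psu_ortho H u hu (fun i => e.repr (f j) i) ?_ i
  have h1 : ∑ i, algebraMap Qb (FLb N) (e.repr (f j) i) * ((u i : G.Voo) : FLb N)
      = ((f j : V) : FLb N) := by
    conv_rhs => rw [← e.sum_repr (f j)]
    rw [AddSubmonoidClass.coe_finsetSum]
    refine Finset.sum_congr rfl fun i _ => ?_
    rw [Submodule.coe_smul, heu, Algebra.smul_def]
  rw [h1]
  exact hf j

/-- **(UNR-NORM ∞)** an inertia-fixed function is a power of `p` times a unit of `V_∞` -/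
def UnrNormOo (p : ℕ) (G : NodalData N A Foo F0 ι) : Prop :=
  ∀ f : FLb N, f ≠ 0 → IsUnrFn A N f →
    ∃ n : ℤ, ∃ h : algebraMap Qb (FLb N) ((p : Qb) ^ n) * f ∈ G.Voo, G.redOo ⟨_, h⟩ ≠ 0

/-- **(UNR-NORM 0)** an inertia-fixed function is a power of `p` times a unit of `V_0` -/
def UnrNormZero (p : ℕ) (G : NodalData N A Foo F0 ι) : Prop :=
  ∀ f : FLb N, f ≠ 0 → IsUnrFn A N f →
    ∃ n : ℤ, ∃ h : algebraMap Qb (FLb N) ((p : Qb) ^ n) * f ∈ G.V0, G.red0 ⟨_, h⟩ ≠ 0

/-- the unramified integers surject onto the residue field -/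
def UnrLift (A : ValuationSubring Qb) : Prop :=
  ∀ x : kRes A, ∃ c : A, (c : Qb) ∈ unrInt A ∧ IsLocalRing.residue A c = x

/-- **The improvement step.** -/
theorem psu_step (H : NodalRvHyp p G) (hp : p.Prime) (hA : A.LiesOverPrime p)
    (hDoo : UnrNormOo p G) (hD0 : UnrNormZero p G) (hS : UnrLift A)
    {d : ℕ} {V : Submodule Qb (FLb N)} (e : Module.Basis (Fin d) Qb V)
    (f : Fin d → V) (hfI : ∀ i, IsUnrFn A N ((f i : V) : FLb N))
    (hoo : ∀ i, ((f i : V) : FLb N) ∈ G.Voo) (h0 : ∀ i, ((f i : V) : FLb N) ∈ G.V0)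
    (hdet : e.det f ≠ 0)
    (hli : ¬ LinearIndependent (kRes A)
      (fun i => (G.redOo ⟨_, hoo i⟩, G.red0 ⟨_, h0 i⟩))) :
    ∃ (f' : Fin d → V) (c : Qb), (∀ i, IsUnrFn A N ((f' i : V) : FLb N)) ∧
      (∀ i, ((f' i : V) : FLb N) ∈ G.Voo) ∧ (∀ i, ((f' i : V) : FLb N) ∈ G.V0) ∧
      c ≠ 0 ∧ c⁻¹ ∈ A ∧ e.det f' = (p : Qb)⁻¹ * c * e.det f := by
  classical
  have hpQ : (p : Qb) ≠ 0 := by exact_mod_cast hp.ne_zero
  rw [Fintype.not_linearIndependent_iff] at hli
  obtain ⟨cb, hcb, i₀, hi₀⟩ := hli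
  choose c hcI hc using fun i => hS (cb i)
  have hcoo : ∀ i, algebraMap Qb (FLb N) (c i : Qb) ∈ G.Voo :=
    fun i => (H.const_oo _).mpr (c i).2
  have hc0 : ∀ i, algebraMap Qb (FLb N) (c i : Qb) ∈ G.V0 :=
    fun i => (H.const_zero _).mpr (c i).2
  obtain ⟨w, hw⟩ : ∃ w : V, w = ∑ i, (c i : Qb) • f i := ⟨_, rfl⟩
  have hwF : ((w : V) : FLb N)
      = ∑ i, algebraMap Qb (FLb N) (c i : Qb) * ((f i : V) : FLb N) := by
    rw [hw, AddSubmonoidClass.coe_finsetSum]
    refine Finset.sum_congr rfl fun i _ => ?_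
    rw [Submodule.coe_smul, Algebra.smul_def]
  obtain ⟨Uoo, hUoo⟩ : ∃ U : G.Voo, U = ∑ i, (⟨_, hcoo i⟩ : G.Voo) * ⟨_, hoo i⟩ := ⟨_, rfl⟩
  obtain ⟨U0, hU0⟩ : ∃ U : G.V0, U = ∑ i, (⟨_, hc0 i⟩ : G.V0) * ⟨_, h0 i⟩ := ⟨_, rfl⟩
  have hUoo_coe : (Uoo : FLb N) = (w : FLb N) := by
    rw [hwF, hUoo, AddSubmonoidClass.coe_finsetSum]
    refine Finset.sum_congr rfl fun i _ => ?_
    rw [Subring.coe_mul]
  have hU0_coe : (U0 : FLb N) = (w : FLb N) := by
    rw [hwF, hU0, AddSubmonoidClass.coe_finsetSum]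
    refine Finset.sum_congr rfl fun i _ => ?_
    rw [Subring.coe_mul]
  have hredoo : G.redOo Uoo = 0 := by
    have h1 : (∑ i, cb i • (G.redOo ⟨_, hoo i⟩, G.red0 ⟨_, h0 i⟩)).1 = 0 := by rw [hcb]; rfl
    rw [Prod.fst_sum] at h1
    rw [hUoo, map_sum]
    refine Eq.trans ?_ h1
    refine Finset.sum_congr rfl fun i _ => ?_
    rw [map_mul, H.red_const_oo (c i) (hcoo i), hc i, Prod.smul_fst, Algebra.smul_def]
  have hred0 : G.red0 U0 = 0 := by
    have h1 : (∑ i, cb i • (G.redOo ⟨_, hoo i⟩, G.red0 ⟨_, h0 i⟩)).2 = 0 := by rw [hcb]; rfl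
    rw [Prod.snd_sum] at h1
    rw [hU0, map_sum]
    refine Eq.trans ?_ h1
    refine Finset.sum_congr rfl fun i _ => ?_
    rw [map_mul, H.red_const_zero (c i) (hc0 i), hc i, Prod.smul_snd, Algebra.smul_def]
  have hwoo : (w : FLb N) ∈ G.Voo := hUoo_coe ▸ Uoo.2
  have hw0 : (w : FLb N) ∈ G.V0 := hU0_coe ▸ U0.2
  have h1 : G.redOo ⟨_, hwoo⟩ = 0 := by
    rw [← hredoo]
    exact congrArg G.redOo (Subtype.ext hUoo_coe.symm)
  have h2 : G.red0 ⟨_, hw0⟩ = 0 := by
    rw [← hred0]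
    exact congrArg G.red0 (Subtype.ext hU0_coe.symm)
  have hwI : IsUnrFn A N (w : FLb N) := by
    rw [hwF]
    exact isUnrFn_sum _ _ fun i _ => isUnrFn_const_mul (hcI i).2 (hfI i)
  obtain ⟨hci₀, hcinv⟩ := psu_inv_mem (c := c i₀) (by rw [hc]; exact hi₀)
  have hdet1 := psu_det_update e f (fun i => (c i : Qb)) (p : Qb)⁻¹ i₀
  have hdet2 : e.det (Function.update f i₀ ((p : Qb)⁻¹ • w))
      = (p : Qb)⁻¹ * (c i₀ : Qb) * e.det f := by
    rw [hw]
    exact hdet1
  have hwne : (w : FLb N) ≠ 0 := by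
    intro h
    have hwz : w = 0 := Subtype.ext h
    rw [hwz, smul_zero, AlternatingMap.map_update_zero] at hdet2
    exact (mul_ne_zero (mul_ne_zero (inv_ne_zero hpQ) hci₀) hdet) hdet2.symm
  have hpoo := psu_div_p G.Voo G.redOo (fun c hc => (H.const_oo c).mpr hc) hp hA hwoo h1
    (hDoo _ hwne hwI)
  have hp0 := psu_div_p G.V0 G.red0 (fun c hc => (H.const_zero c).mpr hc) hp hA hw0 h2
    (hD0 _ hwne hwI)
  have hnew : ((((p : Qb)⁻¹ • w : V) : V) : FLb N)
      = algebraMap Qb (FLb N) (p : Qb)⁻¹ * (w : FLb N) := by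
    rw [Submodule.coe_smul, Algebra.smul_def]
  have hupd : ∀ (P : FLb N → Prop), P (algebraMap Qb (FLb N) (p : Qb)⁻¹ * (w : FLb N)) →
      (∀ i, P ((f i : V) : FLb N)) →
      ∀ i, P (((Function.update f i₀ ((p : Qb)⁻¹ • w)) i : V) : FLb N) := by
    intro P hP hPf i
    by_cases hi : i = i₀
    · rw [hi, Function.update_self, hnew]
      exact hP
    · rw [Function.update_of_ne hi]
      exact hPf i
  refine ⟨Function.update f i₀ ((p : Qb)⁻¹ • w), (c i₀ : Qb),
    hupd (fun x => IsUnrFn A N x) ?_ hfI, hupd (fun x => x ∈ G.Voo) hpoo hoo,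
    hupd (fun x => x ∈ G.V0) hp0 h0, hci₀, hcinv, hdet2⟩
  refine isUnrFn_const_mul (fun σ _ => ?_) hwI
  rw [map_inv₀, map_natCast]

/-- **The induction.** -/
theorem psu_descend (H : NodalRvHyp p G) (hp : p.Prime) (hA : A.LiesOverPrime p)
    (hDoo : UnrNormOo p G) (hD0 : UnrNormZero p G) (hS : UnrLift A)
    {d : ℕ} {V : Submodule Qb (FLb N)} (e : Module.Basis (Fin d) Qb V) (u : Fin d → G.Voo)
    (heu : ∀ i, ((e i : V) : FLb N) = ((u i : G.Voo) : FLb N))
    (hu : LinearIndependent (kRes A) (fun i => G.redOo (u i))) :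
    ∀ (n : ℕ) (f : Fin d → V), (∀ i, IsUnrFn A N ((f i : V) : FLb N)) →
      ∀ (hoo : ∀ i, ((f i : V) : FLb N) ∈ G.Voo) (h0 : ∀ i, ((f i : V) : FLb N) ∈ G.V0),
      e.det f ≠ 0 → (p : Qb) ^ n * (e.det f)⁻¹ ∈ A →
      ∃ (w : Fin d → V), (∀ i, IsUnrFn A N ((w i : V) : FLb N)) ∧
        ∃ (hoo : ∀ i, ((w i : V) : FLb N) ∈ G.Voo) (h0 : ∀ i, ((w i : V) : FLb N) ∈ G.V0),
          LinearIndependent (kRes A) (fun i => (G.redOo ⟨_, hoo i⟩, G.red0 ⟨_, h0 i⟩)) := by
  classical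
  have hpQ : (p : Qb) ≠ 0 := by exact_mod_cast hp.ne_zero
  intro n
  induction n with
  | zero =>
    intro f hfI hoo h0 hdet hn
    by_cases hli : LinearIndependent (kRes A)
        (fun i => (G.redOo ⟨_, hoo i⟩, G.red0 ⟨_, h0 i⟩))
    · exact ⟨f, hfI, hoo, h0, hli⟩
    · exfalso
      obtain ⟨f', c, -, hoo', -, hc0, hci, hdet'⟩ :=
        psu_step H hp hA hDoo hD0 hS e f hfI hoo h0 hdet hli
      have h1 := psu_det_integral H e u heu hu f' hoo'
      rw [pow_zero, one_mul] at hn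
      have h2 : (p : Qb)⁻¹ = e.det f' * c⁻¹ * (e.det f)⁻¹ := by
        rw [hdet']
        field_simp
      have h3 : (p : Qb)⁻¹ ∈ A := by
        rw [h2]
        exact A.mul_mem _ _ (A.mul_mem _ _ h1 hci) hn
      exact na_unit_not_mem_nonunits hpQ h3 hA
  | succ n ih =>
    intro f hfI hoo h0 hdet hn
    by_cases hli : LinearIndependent (kRes A)
        (fun i => (G.redOo ⟨_, hoo i⟩, G.red0 ⟨_, h0 i⟩))
    · exact ⟨f, hfI, hoo, h0, hli⟩
    · obtain ⟨f', c, hI', hoo', h0', hc0, hci, hdet'⟩ :=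
        psu_step H hp hA hDoo hD0 hS e f hfI hoo h0 hdet hli
      refine ih f' hI' hoo' h0' ?_ ?_
      · rw [hdet']
        exact mul_ne_zero (mul_ne_zero (inv_ne_zero hpQ) hc0) hdet
      · have h2 : (p : Qb) ^ n * (e.det f')⁻¹
            = c⁻¹ * ((p : Qb) ^ (n + 1) * (e.det f)⁻¹) := by
          rw [hdet', pow_succ]
          field_simp
        rw [h2]
        exact A.mul_mem _ _ hci hn

end Fermat.Agent.H22.ORD
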