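import Fermat.Agent.H18.ORD.NodalSemiThm
import Fermat.Agent.H26.ORD.PairLattice

/-!
# P-ORD, block B1-LIFT : (PAIR-SEMI) without coefficient functionals, part 1 (helper22)

Orthonormality of a family of `V_∞` with linearly independent reductions, and integrality of
determinants.

* `psu_ortho` : if `∑ a_i u_i ∈ V_∞` and the reductions of the `u_i ∈ V_∞` are `k`-linearly
  independent then all `a_i ∈ A`;
* `psu_linearIndependent` : such a family is `ℚ̄`-linearly independent;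
* `psu_det_mem` : the determinant of a matrix with entries in `A` lies in `A`.
-/

set_option autoImplicit false
set_option linter.unusedSectionVars false
set_option linter.style.haveILetI false
set_option maxHeartbeats 1600000
set_option synthInstance.maxHeartbeats 400000

noncomputable section

open AlgebraicCurve ModularCurve

namespace Fermat.Agent.H22.ORD

open Fermat.Agent.H72.FF Fermat.Agent.H18.ORD

variable {N : ℕ} {A : ValuationSubring Qb} {Foo F0 : Type} [Field Foo] [Field F0]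
  [Algebra (kRes A) Foo] [Algebra (kRes A) F0] {ι : Type}
  {p : ℕ} {G : NodalData N A Foo F0 ι}

/-- the residue of the inverse of an element outside `A` vanishes -/
theorem psu_residue_inv {c : Qb} (hc : c ∉ A) (hci : c⁻¹ ∈ A) :
    IsLocalRing.residue A ⟨c⁻¹, hci⟩ = 0 := by
  obtain ⟨_, h⟩ := Fermat.Agent.H26.ORD.pl_inv_nonunit hc
  exact Fermat.Agent.H26.ORD.pl_residue_eq_zero h

/-- **Orthonormality.** -/
theorem psu_ortho (H : NodalRvHyp p G) {d : ℕ} (u : Fin d → G.Voo)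
    (hu : LinearIndependent (kRes A) (fun i => G.redOo (u i)))
    (a : Fin d → Qb)
    (hf : ∑ i, algebraMap Qb (FLb N) (a i) * ((u i : G.Voo) : FLb N) ∈ G.Voo) :
    ∀ i, a i ∈ A := by
  classical
  by_contra hcon
  push Not at hcon
  obtain ⟨i₁, hi₁⟩ := hcon
  obtain ⟨i₀, -, hmax⟩ := Finset.exists_max_image Finset.univ (fun i => A.valuation (a i))
    ⟨i₁, Finset.mem_univ _⟩
  have h0 : a i₀ ∉ A := by
    intro h
    apply hi₁
    rw [← A.valuation_le_one_iff] at h ⊢
    exact le_trans (hmax i₁ (Finset.mem_univ _)) h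
  have ha0 : a i₀ ≠ 0 := fun h => h0 (h ▸ A.zero_mem)
  have hci : (a i₀)⁻¹ ∈ A := (A.mem_or_inv_mem _).resolve_left h0
  have hb : ∀ i, a i * (a i₀)⁻¹ ∈ A := by
    intro i
    rw [← A.valuation_le_one_iff, map_mul, map_inv₀]
    have h1 := hmax i (Finset.mem_univ _)
    have hv0 : A.valuation (a i₀) ≠ 0 := (Valuation.ne_zero_iff _).mpr ha0
    rw [mul_inv_le_iff₀ (zero_lt_iff.mpr hv0), one_mul]
    exact h1
  have hcoo : ∀ i, algebraMap Qb (FLb N) (a i * (a i₀)⁻¹) ∈ G.Voo :=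
    fun i => (H.const_oo _).mpr (hb i)
  have hc : algebraMap Qb (FLb N) (a i₀)⁻¹ ∈ G.Voo := (H.const_oo _).mpr hci
  set X : G.Voo := ∑ i, (⟨_, hcoo i⟩ : G.Voo) * u i with hX
  have hXeq : X = (⟨_, hc⟩ : G.Voo) * ⟨_, hf⟩ := by
    apply Subtype.ext
    rw [hX, AddSubmonoidClass.coe_finsetSum, Subring.coe_mul]
    show _ = algebraMap Qb (FLb N) (a i₀)⁻¹ *
      ∑ i, algebraMap Qb (FLb N) (a i) * ((u i : G.Voo) : FLb N)
    rw [Finset.mul_sum]
    refine Finset.sum_congr rfl fun i _ => ?_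
    rw [Subring.coe_mul]
    show algebraMap Qb (FLb N) (a i * (a i₀)⁻¹) * _ = _
    rw [map_mul]
    ring
  have hred : G.redOo X = 0 := by
    rw [hXeq, map_mul, H.red_const_oo ⟨_, hci⟩ hc, psu_residue_inv h0 hci, map_zero, zero_mul]
  have hsum : ∑ i, IsLocalRing.residue A ⟨_, hb i⟩ • G.redOo (u i) = 0 := by
    rw [← hred, hX, map_sum]
    refine Finset.sum_congr rfl fun i _ => ?_
    rw [map_mul, H.red_const_oo ⟨_, hb i⟩ (hcoo i), Algebra.smul_def]
  have h1 := (Fintype.linearIndependent_iff.mp hu) _ hsum i₀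
  have h2 : (⟨a i₀ * (a i₀)⁻¹, hb i₀⟩ : A) = 1 := Subtype.ext (mul_inv_cancel₀ ha0)
  rw [h2, map_one] at h1
  exact one_ne_zero h1

/-- a family of `V_∞` with independent reductions is `ℚ̄`-linearly independent -/
theorem psu_linearIndependent (H : NodalRvHyp p G) (hp : p.Prime) (hA : A.LiesOverPrime p)
    {d : ℕ} (u : Fin d → G.Voo)
    (hu : LinearIndependent (kRes A) (fun i => G.redOo (u i))) :
    LinearIndependent Qb (fun i => ((u i : G.Voo) : FLb N)) := by
  classical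
  rw [Fintype.linearIndependent_iff]
  intro a ha i
  by_contra hne
  have hpQ : (p : Qb) ≠ 0 := by exact_mod_cast hp.ne_zero
  have h1 := psu_ortho H u hu (fun j => ((p : Qb) * a i)⁻¹ * a j) (by
    have h2 : ∑ j, algebraMap Qb (FLb N) (((p : Qb) * a i)⁻¹ * a j) * ((u j : G.Voo) : FLb N)
        = algebraMap Qb (FLb N) ((p : Qb) * a i)⁻¹ * ∑ j, a j • ((u j : G.Voo) : FLb N) := by
      rw [Finset.mul_sum]
      refine Finset.sum_congr rfl fun j _ => ?_
      rw [map_mul, Algebra.smul_def]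
      ring
    rw [h2, ha, mul_zero]
    exact G.Voo.zero_mem) i
  have h3 : ((p : Qb) * a i)⁻¹ * a i = (p : Qb)⁻¹ := by
    field_simp
  rw [h3] at h1
  exact na_unit_not_mem_nonunits hpQ h1 hA

/-- the determinant of a matrix with entries in `A` lies in `A` -/
theorem psu_det_mem {n : Type} [Fintype n] [DecidableEq n] (M : Matrix n n Qb)
    (h : ∀ i j, M i j ∈ A) : M.det ∈ A := by
  set M' : Matrix n n ↥A := Matrix.of fun i j => (⟨M i j, h i j⟩ : A) with hM'
  have h1 : M = (A.subtype : ↥A →+* Qb).mapMatrix M' := by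
    ext i j
    rfl
  have h2 := RingHom.map_det (A.subtype : ↥A →+* Qb) M'
  rw [h1, ← h2]
  exact (Matrix.det M').2

/-- a lift of a nonzero residue is a unit of `A` -/
theorem psu_inv_mem {c : A} (h : IsLocalRing.residue A c ≠ 0) :
    (c : Qb) ≠ 0 ∧ (c : Qb)⁻¹ ∈ A := by
  have hu : IsUnit c := by
    by_contra hn
    exact h (Fermat.Agent.H26.ORD.pl_residue_eq_zero hn)
  obtain ⟨v, hv⟩ := hu.exists_right_inv
  have h1 : (c : Qb) * (v : Qb) = 1 := congrArg Subtype.val hv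
  have hc0 : (c : Qb) ≠ 0 := left_ne_zero_of_mul_eq_one h1
  refine ⟨hc0, ?_⟩
  have : (c : Qb)⁻¹ = (v : Qb) := by
    field_simp
    exact h1.symm
  rw [this]
  exact v.2

section OneRing

variable {F' : Type} [Field F'] (W : Subring (FLb N)) (red : W →+* F')

/-- if `p ^ n * w` is a unit of `W` then `p ^ m * w ∈ W` for `m ≥ n` -/
theorem psu_scale (hconst : ∀ c : Qb, c ∈ A → algebraMap Qb (FLb N) c ∈ W)
    (hp : p.Prime) (hA : A.LiesOverPrime p) {w : FLb N} {n : ℤ}
    (h : algebraMap Qb (FLb N) ((p : Qb) ^ n) * w ∈ W) (m : ℤ) (hm : n ≤ m) :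
    algebraMap Qb (FLb N) ((p : Qb) ^ m) * w ∈ W := by
  have hpQ : (p : Qb) ≠ 0 := by exact_mod_cast hp.ne_zero
  have hpA : (p : Qb) ∈ A := A.nonunits_subset hA
  obtain ⟨k, hk⟩ : ∃ k : ℕ, m = n + (k : ℤ) := ⟨(m - n).toNat, by omega⟩
  have h1 : algebraMap Qb (FLb N) ((p : Qb) ^ m) * w
      = algebraMap Qb (FLb N) ((p : Qb) ^ k) * (algebraMap Qb (FLb N) ((p : Qb) ^ n) * w) := by
    rw [hk, zpow_add₀ hpQ, zpow_natCast, map_mul]
    ring
  rw [h1]
  exact W.mul_mem (hconst _ (pow_mem hpA k)) h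

/-- an element of `W` with zero reduction whose normalisation is `p ^ n * w` is divisible by
`p` in `W` -/
theorem psu_div_p (hconst : ∀ c : Qb, c ∈ A → algebraMap Qb (FLb N) c ∈ W)
    (hp : p.Prime) (hA : A.LiesOverPrime p) {w : FLb N} (hw : w ∈ W)
    (hred : red ⟨w, hw⟩ = 0)
    (hD : ∃ n : ℤ, ∃ h : algebraMap Qb (FLb N) ((p : Qb) ^ n) * w ∈ W, red ⟨_, h⟩ ≠ 0) :
    algebraMap Qb (FLb N) (p : Qb)⁻¹ * w ∈ W := by
  have hpQ : (p : Qb) ≠ 0 := by exact_mod_cast hp.ne_zero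
  have hpA : (p : Qb) ∈ A := A.nonunits_subset hA
  obtain ⟨n, h, hne⟩ := hD
  by_cases hn : 0 ≤ n
  · exfalso
    apply hne
    obtain ⟨k, hk⟩ : ∃ k : ℕ, n = (k : ℤ) := ⟨n.toNat, by omega⟩
    have hc : algebraMap Qb (FLb N) ((p : Qb) ^ n) ∈ W := by
      rw [hk, zpow_natCast]
      exact hconst _ (pow_mem hpA k)
    have h1 : (⟨_, h⟩ : W) = ⟨_, hc⟩ * ⟨w, hw⟩ := Subtype.ext rfl
    rw [h1, map_mul, hred, mul_zero]
  · have h1 := psu_scale W hconst hp hA h (-1) (by omega)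
    rwa [zpow_neg, zpow_one] at h1

end OneRing

end Fermat.Agent.H22.ORD
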