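import Fermat.Agent.H22.ORD.PairSemiDet

/-!
# P-ORD, block B1-LIFT : (PAIR-SEMI) without coefficient functionals, part 3 (helper22)

* `pairSemi_space` : a finite-dimensional space `V` with an inertia-fixed basis has an
  inertia-fixed basis inside `V_∞ ∩ V_0` with `k`-linearly independent PAIRS of reductions;
* `pairSemiAt_of_unr` : **(PAIR-SEMI)** `PairSemiAt G P∞ P0` for inertia-fixed base places, from
  - `LatticeG3Oo G` (the lattice property (G3) at `V_∞`, helper26/helper66),
  - `UnrNormOo p G`, `UnrNormZero p G` (an inertia-fixed function is a power of `p` times a unit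
    of `V_∞`, resp. `V_0`),
  - `UnrLift A` (the unramified integers surject onto the residue field).

No coefficient functionals (`NodalCoeff`) are used.
-/

set_option autoImplicit false
set_option linter.unusedSectionVars false
set_option linter.style.haveILetI false
set_option maxHeartbeats 1600000
set_option synthInstance.maxHeartbeats 400000

noncomputable section

open AlgebraicCurve ModularCurve

namespace Fermat.Agent.H22.ORD

open Fermat.Agent.H72.FF Fermat.Agent.H18.ORD Fermat.Agent.H85.ORD Fermat.Agent.H94.ORD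
  Fermat.Agent.H27.ESD

variable {N : ℕ} {A : ValuationSubring Qb} {Foo F0 : Type} [Field Foo] [Field F0]
  [Algebra (kRes A) Foo] [Algebra (kRes A) F0] {ι : Type}
  {p : ℕ} {G : NodalData N A Foo F0 ι}

/-- **(PAIR-SEMI) for a space with an inertia-fixed basis.** -/
theorem pairSemi_space (H : NodalRvHyp p G) (hp : p.Prime) (hA : A.LiesOverPrime p)
    (hG3 : Fermat.Agent.H26.ORD.LatticeG3Oo G) (hDoo : UnrNormOo p G)
    (hD0 : UnrNormZero p G) (hS : UnrLift A)
    (V : Submodule Qb (FLb N)) [FiniteDimensional Qb V]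
    (f : Fin (Module.finrank Qb V) → FLb N) (hfV : ∀ i, f i ∈ V)
    (hfI : ∀ i, IsUnrFn A N (f i)) (hli : LinearIndependent Qb f) :
    ∃ (woo : Fin (Module.finrank Qb V) → G.Voo) (w0 : Fin (Module.finrank Qb V) → G.V0),
      (∀ i, ((woo i : G.Voo) : FLb N) = ((w0 i : G.V0) : FLb N)) ∧
      (∀ i, IsUnrFn A N ((woo i : G.Voo) : FLb N)) ∧
      (∀ i, ((woo i : G.Voo) : FLb N) ∈ V) ∧
      LinearIndependent (kRes A) (fun i => (G.redOo (woo i), G.red0 (w0 i))) := by
  classical
  have hpQ : (p : Qb) ≠ 0 := by exact_mod_cast hp.ne_zero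
  have hcard : Fintype.card (Fin (Module.finrank Qb V)) = Module.finrank Qb V :=
    Fintype.card_fin _
  -- the (G3)-basis
  obtain ⟨u, huV, hu⟩ := hG3 V inferInstance
  have hliu := psu_linearIndependent H hp hA u hu
  have hliV : LinearIndependent Qb (fun i => (⟨(u i : FLb N), huV i⟩ : V)) :=
    LinearIndependent.of_comp V.subtype hliu
  have hspan := hliV.span_eq_top_of_card_eq_finrank' hcard
  obtain ⟨e, he⟩ : ∃ e : Module.Basis (Fin (Module.finrank Qb V)) Qb V,
      ∀ i, e i = ⟨(u i : FLb N), huV i⟩ :=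
    ⟨Module.Basis.mk hliV hspan.ge, fun i => Module.Basis.mk_apply _ _ i⟩
  have heu : ∀ i, ((e i : V) : FLb N) = ((u i : G.Voo) : FLb N) := fun i => by rw [he i]
  -- the scaled inertia-fixed basis
  have hf0 : ∀ i, f i ≠ 0 := fun i => hli.ne_zero i
  choose noo hnoo _ using fun i => hDoo (f i) (hf0 i) (hfI i)
  choose n0 hn0 _ using fun i => hD0 (f i) (hf0 i) (hfI i)
  have hliF : LinearIndependent Qb (fun i => (⟨f i, hfV i⟩ : V)) :=
    LinearIndependent.of_comp V.subtype hli
  obtain ⟨g, hg⟩ : ∃ g : Fin (Module.finrank Qb V) → V,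
      g = fun i => ((p : Qb) ^ (max (noo i) (n0 i))) • (⟨f i, hfV i⟩ : V) := ⟨_, rfl⟩
  have hgF : ∀ i, ((g i : V) : FLb N)
      = algebraMap Qb (FLb N) ((p : Qb) ^ (max (noo i) (n0 i))) * f i := by
    intro i
    rw [hg, Submodule.coe_smul, Algebra.smul_def]
  have hgli : LinearIndependent Qb g := by
    have h1 := hliF.units_smul (fun i => Units.mk0 ((p : Qb) ^ (max (noo i) (n0 i)))
      (zpow_ne_zero _ hpQ))
    rw [hg]
    exact h1
  have hgoo : ∀ i, ((g i : V) : FLb N) ∈ G.Voo := fun i => by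
    rw [hgF]
    exact psu_scale G.Voo (fun c hc => (H.const_oo c).mpr hc) hp hA (hnoo i) _ (le_max_left _ _)
  have hg0 : ∀ i, ((g i : V) : FLb N) ∈ G.V0 := fun i => by
    rw [hgF]
    exact psu_scale G.V0 (fun c hc => (H.const_zero c).mpr hc) hp hA (hn0 i) _
      (le_max_right _ _)
  have hgI : ∀ i, IsUnrFn A N ((g i : V) : FLb N) := fun i => by
    rw [hgF]
    refine isUnrFn_const_mul (fun σ _ => ?_) (hfI i)
    rw [map_zpow₀, map_natCast]
  have hdet : e.det g ≠ 0 :=
    (e.is_basis_iff_det.mp ⟨hgli, hgli.span_eq_top_of_card_eq_finrank' hcard⟩).ne_zero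
  obtain ⟨n, hn⟩ := Fermat.Agent.H57.FF.exists_pow_mul_mem hp A hA (e.det g)⁻¹
  obtain ⟨w, hwI, hwoo, hw0, hwli⟩ :=
    psu_descend H hp hA hDoo hD0 hS e u heu hu n g hgI hgoo hg0 hdet (hn n le_rfl)
  exact ⟨fun i => ⟨_, hwoo i⟩, fun i => ⟨_, hw0 i⟩, fun _ => rfl, hwI, fun i => (w i).2, hwli⟩

/-- **(PAIR-SEMI)** without coefficient functionals. -/
theorem pairSemiAt_of_unr (H : NodalRvHyp p G) (hp : p.Prime) (hA : A.LiesOverPrime p)
    (hG3 : Fermat.Agent.H26.ORD.LatticeG3Oo G) (hDoo : UnrNormOo p G)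
    (hD0 : UnrNormZero p G) (hS : UnrLift A) {g : ℕ}
    (pkL : RiemannPackage Qb (FLb N) g) {Poo P0 : Place Qb (FLb N)}
    (hPoo : IsUnrPlace A N Poo) (hP0 : IsUnrPlace A N P0) :
    PairSemiAt G Poo P0 := by
  intro n
  unfold twoPt
  haveI hfin : FiniteDimensional Qb (riemannRochSpace
      (Finsupp.single Poo (n : ℤ) + Finsupp.single P0 (n : ℤ) : Divisor Qb (FLb N))) :=
    pkL.finite _
  obtain ⟨f, hfV, hfI, hli, -⟩ :=
    Fermat.Agent.H37.ORD.rr_descent_two_points A N Poo P0 hPoo hP0 (n : ℤ) (n : ℤ)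
  exact pairSemi_space H hp hA hG3 hDoo hD0 hS _ f hfV hfI hli

end Fermat.Agent.H22.ORD
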